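/-
S55, layer G, block G-SI-FINAL (helper777).
Norm computations on the `S`-idèle class group for a Galois extension `L/K` with group `G`
(on top of helper773's base change `cBase : C_S(K) → C_S(L)` and Galois descent):

* `normSub S G K L`      : the subgroup `cBase⁻¹ (N_G C_S(L))` of `C_S(K)`;
* `norm_cBase`           : `N_G (cBase c) = |G| • cBase c`;
* `card_smul_mem_normSub`: `|G| • C_S(K) ⊆ normSub`;
* `relIndex_norm_invariants`: `[C_S(L)^G : N_G C_S(L)] = [C_S(K) : normSub]` (descent).
-/
import Fermat.Agent.S55.G.DescH773.Descent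

set_option autoImplicit false
set_option linter.unusedSectionVars false

open scoped NumberField TensorProduct
open IsDedekindDomain

noncomputable section

namespace Fermat.Agent.S55.G.SI777

open Fermat.Agent.S55.G Fermat.Agent.S55.G.DescH773

section Norm

variable (S : Finset Nat.Primes) (G K L : Type) [Group G] [Fintype G] [Field K] [NumberField K]
  [Field L] [NumberField L] [Algebra K L] [MulSemiringAction G L] [IsGaloisGroup G K L]

/-- The subgroup `cBase⁻¹ (N_G C_S(L))` of `C_S(K)`. -/
def normSub : AddSubgroup (CS S K) :=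
  (LinearMap.range (cRepr S G L).norm).toAddSubgroup.comap (cBase S K L)

lemma mem_normSub_iff (c : CS S K) :
    c ∈ normSub S G K L ↔ ∃ x : CS S L, (cRepr S G L).norm x = cBase S K L c := Iff.rfl

/-- `N_G (ι c) = |G| • ι c` for `c ∈ C_S(K)`. -/
lemma norm_cBase (c : CS S K) :
    (cRepr S G L).norm (cBase S K L c) = Fintype.card G • cBase S K L c := by
  rw [Representation.norm, LinearMap.sum_apply]
  simp only [cRepr_cBase S G K L]
  rw [Finset.sum_const, Finset.card_univ]

/-- `|G| • C_S(K) ⊆ cBase⁻¹ (N_G C_S(L))`. -/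
lemma card_smul_mem_normSub (c : CS S K) : Fintype.card G • c ∈ normSub S G K L := by
  rw [mem_normSub_iff]
  exact ⟨cBase S K L c, by rw [norm_cBase, map_nsmul]⟩

lemma range_norm_le_invariants :
    LinearMap.range (cRepr S G L).norm ≤ (cRepr S G L).invariants := by
  rintro _ ⟨x, rfl⟩ g
  exact Representation.self_norm_apply _ g x

/-- The range of `cBase` is the subgroup of `G`-invariants (Galois descent, helper773). -/
lemma range_cBase_eq (hS : S.Nonempty) (hur : ∀ w : PrimeOut S L, eAt K w.1 = 1) :
    (cBase S K L).range = (cRepr S G L).invariants.toAddSubgroup := by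
  ext c
  rw [mem_range_cBase_iff S G K L hS hur]
  rfl

/-- `[C_S(L)^G : N_G C_S(L)] = [C_S(K) : cBase⁻¹ (N_G C_S(L))]`. -/
lemma relIndex_norm_invariants (hS : S.Nonempty) (hur : ∀ w : PrimeOut S L, eAt K w.1 = 1) :
    (LinearMap.range (cRepr S G L).norm).toAddSubgroup.relIndex
        (cRepr S G L).invariants.toAddSubgroup = (normSub S G K L).index := by
  rw [normSub, AddSubgroup.index_comap, range_cBase_eq S G K L hS hur]

end Norm

end Fermat.Agent.S55.G.SI777
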