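/-
S55, layer G, block G-SI-FINAL (helper777).
Unramified primes and split primes for a Galois extension `L/K` with group `G`:

* `eAt_eq_one_of_inertia`   : trivial inertia group at `w` ⇒ `e(w | K) = 1`;
* `stabilizer_trivial`      : trivial inertia and `f(w | K) = 1` ⇒ trivial decomposition group;
* `inertiaDeg_eq_one_of_absNorm_prime`, `inertiaDeg_eq_one_of_absNorm_eq`;
* `norm_single_eq_divBase`  : for a prime `w` with trivial decomposition group,
  `N_G [w] = divBase [w ∩ K]` (all primes unramified outside `S`);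
* `single_mem_normSub`      : the class of `(0, [w ∩ K])` lies in `cBase⁻¹ (N_G C_S(L))`.
-/
import Fermat.Agent.S55.G.SI777.Norm

set_option autoImplicit false
set_option linter.unusedSectionVars false

open scoped NumberField TensorProduct Pointwise
open IsDedekindDomain

noncomputable section

namespace Fermat.Agent.S55.G.SI777

open Fermat.Agent.S55.G Fermat.Agent.S55.G.DescH773

section Ram

variable (G K L : Type) [Group G] [Finite G] [Field K] [NumberField K]
  [Field L] [NumberField L] [Algebra K L] [MulSemiringAction G L] [IsGaloisGroup G K L]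

variable {L} in
/-- If the inertia group of `w` is trivial, then `e(w | K) = 1`. -/
lemma eAt_eq_one_of_inertia (w : HeightOneSpectrum (𝓞 L))
    (h : ∀ g : G, (∀ x : 𝓞 L, g • x - x ∈ w.asIdeal) → g = 1) : eAt K w = 1 := by
  have hv : (primeUnder K w).asIdeal ≠ ⊥ := (primeUnder K w).ne_bot
  have : (primeUnder K w).asIdeal.IsMaximal := (primeUnder K w).isMaximal
  have h1 : Nat.card (w.asIdeal.inertia G) = 1 := by
    rw [Nat.card_eq_one_iff_unique]
    refine ⟨⟨fun a b => Subtype.ext ?_⟩, ⟨1⟩⟩
    rw [h a.1 a.2, h b.1 b.2]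
  have h2 := Ideal.card_inertia_eq_ramificationIdxIn (G := G) (primeUnder K w).asIdeal w.asIdeal
  have h3 := Ideal.ramificationIdxIn_eq_ramificationIdx (primeUnder K w).asIdeal w.asIdeal G
  have h4 := Ideal.ramificationIdx'_eq_ramificationIdx (primeUnder K w).asIdeal w.asIdeal hv
  rw [eAt, h4, ← h3, ← h2, h1]

variable {L} in
/-- If the inertia group of `w` is trivial and `f(w | K) = 1`, then the decomposition group of
`w` is trivial. -/
lemma stabilizer_trivial (w : HeightOneSpectrum (𝓞 L))
    (h : ∀ g : G, (∀ x : 𝓞 L, g • x - x ∈ w.asIdeal) → g = 1)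
    (hf : w.asIdeal.inertiaDeg (𝓞 K) = 1) (g : G) (hg : primeSMul G g w = w) : g = 1 := by
  have : (primeUnder K w).asIdeal.IsMaximal := (primeUnder K w).isMaximal
  have h1 : Nat.card (w.asIdeal.inertia G) = 1 := by
    rw [Nat.card_eq_one_iff_unique]
    refine ⟨⟨fun a b => Subtype.ext ?_⟩, ⟨1⟩⟩
    rw [h a.1 a.2, h b.1 b.2]
  have h2 := Ideal.card_stabilizer_eq_card_inertia_mul_finrank (G := G)
    (primeUnder K w).asIdeal w.asIdeal
  rw [h1, hf, Nat.card_eq_one_iff_unique] at h2
  have hmem : g ∈ MulAction.stabilizer G w.asIdeal := by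
    rw [MulAction.mem_stabilizer_iff]
    exact congrArg HeightOneSpectrum.asIdeal hg
  have := h2.1.elim ⟨g, hmem⟩ 1
  exact congrArg Subtype.val this

variable {L} in
lemma absNorm_eq_pow (w : HeightOneSpectrum (𝓞 L)) :
    Ideal.absNorm w.asIdeal =
      Ideal.absNorm (primeUnder K w).asIdeal ^ w.asIdeal.inertiaDeg (𝓞 K) := by
  have : (primeUnder K w).asIdeal.IsMaximal := (primeUnder K w).isMaximal
  have : w.asIdeal.IsMaximal := w.isMaximal
  rw [← Ideal.inertiaDeg'_eq_inertiaDeg (primeUnder K w).asIdeal w.asIdeal]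
  exact Ideal.absNorm_eq_pow_inertiaDeg'_of_liesOver w.asIdeal (primeUnder K w).asIdeal
    (primeUnder K w).isPrime (primeUnder K w).ne_bot

variable {L} in
lemma inertiaDeg_eq_one_of_absNorm_prime (w : HeightOneSpectrum (𝓞 L))
    (hw : (Ideal.absNorm w.asIdeal).Prime) : w.asIdeal.inertiaDeg (𝓞 K) = 1 := by
  have h := absNorm_eq_pow K w
  rw [h] at hw
  exact Nat.Prime.eq_one_of_pow hw

variable {L} in
lemma inertiaDeg_eq_one_of_absNorm_eq (w : HeightOneSpectrum (𝓞 L))
    (hw : Ideal.absNorm w.asIdeal = Ideal.absNorm (primeUnder K w).asIdeal) :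
    w.asIdeal.inertiaDeg (𝓞 K) = 1 := by
  have h := absNorm_eq_pow K w
  have h2 : 2 ≤ Ideal.absNorm (primeUnder K w).asIdeal := by
    have h0 : Ideal.absNorm (primeUnder K w).asIdeal ≠ 0 := by
      rw [Ne, Ideal.absNorm_eq_zero_iff]
      exact (primeUnder K w).ne_bot
    have h1 : Ideal.absNorm (primeUnder K w).asIdeal ≠ 1 := by
      rw [Ne, Ideal.absNorm_eq_one_iff]
      exact (primeUnder K w).isPrime.ne_top
    omega
  rw [hw] at h
  exact (Nat.pow_right_injective h2 (by simpa using h)).symm

end Ram

section NormSingle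

variable (S : Finset Nat.Primes) (G K L : Type) [Group G] [Fintype G] [Field K] [NumberField K]
  [Field L] [NumberField L] [Algebra K L] [MulSemiringAction G L] [IsGaloisGroup G K L]

/-- For a prime `w` outside `S` with trivial decomposition group (`L/K` unramified outside `S`),
`N_G [w] = ∑_{w' | v} [w'] = divBase [v]`, `v = w ∩ K`. -/
lemma norm_single_eq_divBase (hur : ∀ w : PrimeOut S L, eAt K w.1 = 1) (w : PrimeOut S L)
    (hstab : ∀ g : G, primeOutMap S G L g w = w → g = 1) :
    (divRepr S G L).norm (Finsupp.single w 1) =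
      divBase S K L (Finsupp.single (primeOutUnder S K L w) 1) := by
  classical
  ext w'
  rw [Representation.norm, LinearMap.sum_apply, Finsupp.finsetSum_apply, divBase_apply, hur w']
  simp only [divRepr_single, Finsupp.single_apply, Nat.cast_one, one_mul]
  by_cases h : primeOutUnder S K L w = primeOutUnder S K L w'
  · obtain ⟨g0, hg0⟩ := exists_primeOutMap_eq S G K L w w' h
    rw [if_pos h, Finset.sum_eq_single g0]
    · simp [hg0]
    · intro g _ hg
      rw [if_neg]
      intro hgw
      apply hg
      have h1 : primeOutMap S G L (g0⁻¹ * g) w = w := by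
        rw [primeOutMap_mul, hgw, ← hg0, ← primeOutMap_mul, inv_mul_cancel, primeOutMap_one]
      have h2 := hstab _ h1
      exact (inv_mul_eq_one.1 h2).symm
    · intro h'
      exact absurd (Finset.mem_univ _) h'
  · rw [if_neg h]
    apply Finset.sum_eq_zero
    intro g _
    rw [if_neg]
    intro hgw
    apply h
    rw [← hgw, primeOutUnder_primeOutMap]

lemma jdRepr_norm_apply (y : JD S L) :
    (jdRepr S G L).norm y = ((jRepr G S L).norm y.1, (divRepr S G L).norm y.2) := by
  simp only [Representation.norm, LinearMap.sum_apply, jdRepr_apply]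
  exact Prod.ext (by simp [Prod.fst_sum]) (by simp [Prod.snd_sum])

lemma cRepr_norm_mk (y : JD S L) :
    (cRepr S G L).norm (Submodule.Quotient.mk y) =
      Submodule.Quotient.mk ((jdRepr S G L).norm y) := by
  simp only [Representation.norm, LinearMap.sum_apply, cRepr_mk]
  rw [← Submodule.mkQ_apply, map_sum]
  rfl

/-- The class of `(0, [w ∩ K])` is a norm from `C_S(L)` when `w` has trivial decomposition
group. -/
lemma single_mem_normSub (hur : ∀ w : PrimeOut S L, eAt K w.1 = 1) (w : PrimeOut S L)
    (hstab : ∀ g : G, primeOutMap S G L g w = w → g = 1) :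
    (Submodule.Quotient.mk ((0, Finsupp.single (primeOutUnder S K L w) 1) : JD S K) : CS S K) ∈
      normSub S G K L := by
  rw [mem_normSub_iff]
  refine ⟨Submodule.Quotient.mk ((0, Finsupp.single w 1) : JD S L), ?_⟩
  rw [cRepr_norm_mk, cBase_mk, jdRepr_norm_apply]
  congr 1
  refine Prod.ext ?_ ?_
  · simp
  · exact norm_single_eq_divBase S G K L hur w hstab

end NormSingle

end Fermat.Agent.S55.G.SI777
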