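/-
S55, layer G, block G-SI-FINAL (helper777): assembly of the SECOND INEQUALITY
`SecondInequalitySpec` (helper421 `G/Spec.lean`) from

* `IndexBoundStatement` : the index bound `[C_S(K) : H] ≤ [L : K]` for every subgroup
  `H ⊇ n • C_S(K)` containing the classes `(0, [w ∩ K])` of the primes below the primes `w` of
  `L` of prime absolute norm (the analytic second inequality in the `S`-idèle model; helper963's
  G-SI-BRIDGE on top of the ideal-theoretic `RayDatum.card_le_finrank`);
* helper773's Galois descent `C_S(K) ≃ C_S(L)^G` (`DescH773`);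
* `T.CyclicCardSpec` (`|H²(G, A)| = [A^G : N_G A]` for cyclic `G`; on main).
-/
import Fermat.Agent.S55.G.SI777.Split
import Fermat.Agent.S55.G.Spec
import Fermat.Agent.S55.T.HerbrandH895

set_option autoImplicit false
set_option linter.unusedSectionVars false

open scoped NumberField TensorProduct Pointwise
open IsDedekindDomain CategoryTheory groupCohomology

noncomputable section

namespace Fermat.Agent.S55.G.SI777

open Fermat.Agent.S55.G Fermat.Agent.S55.G.DescH773

/-- **Index bound (analytic second inequality in the `S`-idèle class group).**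
Let `L/K` be number fields, `S ≠ ∅`, `n > 0`, and `H ≤ C_S(K)` a subgroup containing
`n • C_S(K)` and the class of `(0, [w ∩ K])` for every prime `w` of `L` outside `S` of prime
absolute norm.  Then `H` has finite index at most `[L : K]`. -/
def IndexBoundStatement : Prop :=
  ∀ (S : Finset Nat.Primes) (K L : Type) [Field K] [NumberField K] [Field L] [NumberField L]
    [Algebra K L] (n : ℕ), 0 < n → S.Nonempty →
    ∀ H : AddSubgroup (CS S K),
      (∀ c : CS S K, n • c ∈ H) →
      (∀ w : PrimeOut S L, (Ideal.absNorm w.1.asIdeal).Prime →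
        (Submodule.Quotient.mk ((0, Finsupp.single (primeOutUnder S K L w) 1) : JD S K) :
          CS S K) ∈ H) →
      H.index ≠ 0 ∧ H.index ≤ Module.finrank K L

section Adapter

variable (G L : Type) [Group G] [Finite G] [Field L] [NumberField L] [MulSemiringAction G L]
  [FaithfulSMul G L]

/-- The fixed field of a finite group acting on a number field is a number field. -/
instance numberField_fixedPoints : NumberField (FixedPoints.subfield G L) where
  to_charZero := inferInstance
  to_finiteDimensional :=
    FiniteDimensional.of_injective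
      ((algebraMap (FixedPoints.subfield G L) L).toRatAlgHom.toLinearMap)
      (algebraMap (FixedPoints.subfield G L) L).injective

end Adapter

section Main

/-- A subgroup `H ⊇ p • A` (`p` prime) of finite index at most `p` has index dividing `p`. -/
lemma index_dvd_prime {A : Type*} [AddCommGroup A] (H : AddSubgroup A) (p : ℕ) (hp : p.Prime)
    (hpH : ∀ a : A, p • a ∈ H) (h0 : H.index ≠ 0) (hle : H.index ≤ p) : H.index ∣ p := by
  by_cases h1 : H.index = 1
  · rw [h1]
    exact one_dvd _
  · obtain ⟨q, hq, hqd⟩ := Nat.exists_prime_and_dvd h1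
    have : H.FiniteIndex := ⟨h0⟩
    have : Finite (A ⧸ H) := AddSubgroup.finite_quotient_of_finiteIndex
    have := Fact.mk hq
    obtain ⟨x, hx⟩ := exists_prime_addOrderOf_dvd_card' (G := A ⧸ H) q
      (by rwa [← AddSubgroup.index_eq_card])
    have hpx : p • x = 0 := by
      obtain ⟨a, rfl⟩ := QuotientAddGroup.mk_surjective x
      exact (QuotientAddGroup.eq_zero_iff _).2 (hpH a)
    have hqp' : q ∣ p := hx ▸ addOrderOf_dvd_of_nsmul_eq_zero hpx
    have hqp : q = p := (Nat.prime_dvd_prime_iff_eq hq hp).1 hqp'
    subst hqp
    exact (Nat.le_antisymm hle (Nat.le_of_dvd (Nat.pos_of_ne_zero h0) hqd)) ▸ dvd_rfl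

/-- **G-SI (second inequality)**, from the analytic index bound in the `S`-idèle model,
helper773's Galois descent and the cyclic cohomology computation `T.CyclicCardSpec`.
(The root of unity hypothesis is not used.) -/
theorem secondInequality_of (hB : IndexBoundStatement) (hT : T.CyclicCardSpec) :
    SecondInequalitySpec := by
  intro p hp _ S G L _ _ _ _ _ _ hpS hcard hunr _
  have hS : S.Nonempty := ⟨_, hpS⟩
  let _ : Fintype G := Fintype.ofFinite G
  have : IsCyclic G := isCyclic_of_prime_card hcard
  have hin : ∀ w : HeightOneSpectrum (𝓞 L), ¬ IsAbove S L w →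
      ∀ g : G, (∀ x : 𝓞 L, g • x - x ∈ w.asIdeal) → g = 1 := by
    intro w hw g hg
    exact FaithfulSMul.eq_of_smul_eq_smul (α := L) (fun x => by rw [hunr w hw g hg x, one_smul])
  have hur : ∀ w : PrimeOut S L, eAt (FixedPoints.subfield G L) w.1 = 1 :=
    fun w => eAt_eq_one_of_inertia G (FixedPoints.subfield G L) w.1 (hin w.1 w.2)
  have hfin : Module.finrank (FixedPoints.subfield G L) L = p := by
    rw [← IsGaloisGroup.card_eq_finrank G, hcard]
  have hcardF : Fintype.card G = p := by rw [← Nat.card_eq_fintype_card, hcard]
  have hpmem : ∀ c : CS S (FixedPoints.subfield G L),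
      p • c ∈ normSub S G (FixedPoints.subfield G L) L :=
    fun c => hcardF ▸ card_smul_mem_normSub S G (FixedPoints.subfield G L) L c
  obtain ⟨h0, hle⟩ := hB S (FixedPoints.subfield G L) L p hp.out.pos hS
    (normSub S G (FixedPoints.subfield G L) L) hpmem
    (fun w hw => single_mem_normSub S G (FixedPoints.subfield G L) L hur w (fun g hg =>
      stabilizer_trivial G (FixedPoints.subfield G L) w.1 (hin w.1 w.2)
        (inertiaDeg_eq_one_of_absNorm_prime (FixedPoints.subfield G L) w.1 hw) g
        (congrArg Subtype.val hg)))
  rw [hfin] at hle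
  have hdvd : (normSub S G (FixedPoints.subfield G L) L).index ∣ p :=
    index_dvd_prime _ p hp.out hpmem h0 hle
  have hH2 : Nat.card (groupCohomology (CRep S G L) 2) =
      (normSub S G (FixedPoints.subfield G L) L).index := by
    rw [(hT ℤ G (CRep S G L)).1]
    exact relIndex_norm_invariants S G (FixedPoints.subfield G L) L hS hur
  refine ⟨?_, hH2 ▸ hdvd⟩
  exact Nat.finite_of_card_ne_zero (hH2 ▸ h0)

/-- **G-SI** from the index bound alone (`T.CyclicCardSpec` is on main: helper895). -/
theorem secondInequality_of_indexBound (hB : IndexBoundStatement) : SecondInequalitySpec :=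
  secondInequality_of hB T.H895.cyclicCard

end Main

end Fermat.Agent.S55.G.SI777
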